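import Fermat.Agent.FermatCount.Basic
import Mathlib.NumberTheory.GaussSum
import Mathlib.NumberTheory.LegendreSymbol.AddCharacter
import Mathlib.Algebra.BigOperators.Ring.Finset

/-!
# The zeros of a diagonal form

For `n ∣ q - 1` and nonzero `a i` the zeros `Z` of `∑ a i x i ^ n` satisfy
`q Z = q ^ m + (q - 1) ∑ ∏ χ i⁻¹ (a i) g(χ i)`, the sum over the tuples of nontrivial characters killed by `n` with
trivial product: expand `∑ t, ψ (t ∑ a i x i ^ n)` and each `∑ x, ψ (c x ^ n)` by characters.
-/

set_option autoImplicit false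
set_option linter.unusedSectionVars false

noncomputable section

open Finset
open scoped Classical

namespace FA.DiagonalHypersurface

open FA.FermatCount

variable {F : Type*} [Field F] [Fintype F]

/-- `∑ x, ψ (c x ^ n)` as a sum of Gauss sums. -/
theorem sum_addChar_pow {n : ℕ} (hn0 : 0 < n) {ψ : AddChar F ℂ} (hψ : ψ.IsPrimitive) {c : F} (hc : c ≠ 0) :
    ∑ x, ψ (c * x ^ n) = ∑ χ ∈ (killed F n).erase 1, χ⁻¹ c * gaussSum χ ψ := by
  have hroot : ∀ u : F, ((roots F n u).card : ℂ) = if u = 0 then 1 else ∑ χ ∈ killed F n, χ u := fun u => by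
    split_ifs with hu
    · rw [hu, show roots F n 0 = {0} from Finset.ext fun x => by
        rw [mem_roots, Finset.mem_singleton, pow_eq_zero_iff hn0.ne'], Finset.card_singleton, Nat.cast_one]
    · exact card_roots_eq_sum hn0 hu
  have hterm : ∀ u : F, ((roots F n u).card : ℂ) * ψ (c * u) =
      ψ (c * u) + ∑ χ ∈ (killed F n).erase 1, χ u * ψ (c * u) := fun u => by
    rw [hroot]
    split_ifs with hu
    · simp only [hu, mul_zero, AddChar.map_zero_eq_one, mul_one, MulChar.map_zero, Finset.sum_const_zero, add_zero]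
    · rw [← Finset.add_sum_erase _ _ one_mem_killed, MulChar.one_apply (isUnit_iff_ne_zero.mpr hu), add_mul, one_mul,
        Finset.sum_mul]
  calc ∑ x, ψ (c * x ^ n) = ∑ u, ((roots F n u).card : ℂ) * ψ (c * u) := by
        rw [← Finset.sum_fiberwise Finset.univ (fun x : F => x ^ n)]
        refine Finset.sum_congr rfl fun u _ => ?_
        rw [Finset.sum_congr rfl (g := fun _ => ψ (c * u)) fun x hx => by rw [(Finset.mem_filter.mp hx).2],
          Finset.sum_const, nsmul_eq_mul]
        rfl
    _ = (∑ u, ψ (c * u)) + ∑ χ ∈ (killed F n).erase 1, ∑ u, χ u * ψ (c * u) := by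
        rw [Finset.sum_congr rfl fun u _ => hterm u, Finset.sum_add_distrib, Finset.sum_comm (γ := F)]
    _ = _ := by
        rw [show ∑ u, ψ (c * u) = 0 from AddChar.sum_eq_zero_of_ne_one (hψ hc), zero_add]
        refine Finset.sum_congr rfl fun χ _ => ?_
        rw [← Units.val_mk0 hc, ← gaussSum_mulShift_eq]
        rfl

variable {m : ℕ}

theorem prod_mulChar_apply {ι R : Type*} [CommRing R] (s : Finset ι) (χ : ι → MulChar F R) (u : Fˣ) :
    (∏ i ∈ s, χ i) u = ∏ i ∈ s, χ i u := by
  induction s using Finset.induction_on with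
  | empty => rw [Finset.prod_empty, Finset.prod_empty, MulChar.one_apply_coe]
  | insert a s ha ih => rw [Finset.prod_insert ha, Finset.prod_insert ha, MulChar.mul_apply, ih]

theorem map_sum_addChar {ι A R : Type*} [AddCommMonoid A] [CommMonoid R] (ψ : AddChar A R) (s : Finset ι)
    (x : ι → A) : ψ (∑ i ∈ s, x i) = ∏ i ∈ s, ψ (x i) := by
  induction s using Finset.induction_on with
  | empty => rw [Finset.sum_empty, Finset.prod_empty, AddChar.map_zero_eq_one]
  | insert a s ha ih => rw [Finset.sum_insert ha, Finset.prod_insert ha, AddChar.map_add_eq_mul, ih]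

/-- The tuples of nontrivial characters killed by `n` with trivial product. -/
def charTuples (F : Type*) [Field F] [Fintype F] (n m : ℕ) : Finset (Fin m → MulChar F ℂ) :=
  (Fintype.piFinset fun _ => (killed F n).erase 1).filter fun χ => ∏ i, χ i = 1

theorem mem_charTuples {n : ℕ} {χ : Fin m → MulChar F ℂ} :
    χ ∈ charTuples F n m ↔ (∀ i, χ i ≠ 1 ∧ χ i ^ n = 1) ∧ ∏ i, χ i = 1 := by
  simp only [charTuples, Finset.mem_filter, Fintype.mem_piFinset, Finset.mem_erase, mem_killed]

/-- The zeros of `∑ a i x i ^ n`. -/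
def diagonalZeros {E : Type*} [Field E] (a : Fin m → E) (n : ℕ) : ℕ :=
  Nat.card {x : Fin m → E // ∑ i, a i * x i ^ n = 0}

/-- **The number of zeros.** -/
theorem card_diagonalZeros {n : ℕ} (hn0 : 0 < n) {a : Fin m → F} (ha : ∀ i, a i ≠ 0) {ψ : AddChar F ℂ}
    (hψ : ψ.IsPrimitive) :
    (diagonalZeros a n : ℂ) * Fintype.card F = (Fintype.card F : ℂ) ^ m +
      ((Fintype.card F : ℂ) - 1) * ∑ χ ∈ charTuples F n m, ∏ i, ((χ i)⁻¹ (a i) * gaussSum (χ i) ψ) := by
  set S := (killed F n).erase 1
  set P := Fintype.piFinset fun _ : Fin m => S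
  have hL : (diagonalZeros a n : ℂ) * Fintype.card F = ∑ t : F, ∏ i, ∑ x : F, ψ (t * a i * x ^ n) := by
    calc (diagonalZeros a n : ℂ) * Fintype.card F
        = ∑ x : Fin m → F, ∑ t : F, ψ (t * ∑ i, a i * x i ^ n) := by
          rw [diagonalZeros, Nat.card_eq_fintype_card, Fintype.card_subtype, Finset.card_filter, Nat.cast_sum,
            Finset.sum_mul]
          refine Finset.sum_congr rfl fun x _ => ?_
          rw [AddChar.sum_mulShift _ hψ]
          split_ifs <;> simp
      _ = ∑ t : F, ∑ x : Fin m → F, ∏ i, ψ (t * a i * x i ^ n) := by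
          rw [Finset.sum_comm]
          refine Finset.sum_congr rfl fun t _ => Finset.sum_congr rfl fun x _ => ?_
          rw [Finset.mul_sum, map_sum_addChar]
          simp only [mul_assoc]
      _ = _ := Finset.sum_congr rfl fun t _ => (Fintype.prod_sum fun i x => ψ (t * a i * x ^ n)).symm
  have h0 : ∏ i : Fin m, ∑ x : F, ψ (0 * a i * x ^ n) = (Fintype.card F : ℂ) ^ m := by simp
  rw [hL, ← Finset.add_sum_erase _ _ (Finset.mem_univ (0 : F)), h0]
  refine congrArg (_ + ·) ?_
  calc ∑ t ∈ Finset.univ.erase (0 : F), ∏ i, ∑ x : F, ψ (t * a i * x ^ n)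
      = ∑ t ∈ Finset.univ.erase (0 : F), ∑ χ ∈ P, (∏ i, χ i)⁻¹ t * ∏ i, ((χ i)⁻¹ (a i) * gaussSum (χ i) ψ) := by
        refine Finset.sum_congr rfl fun t ht => ?_
        have ht0 := Finset.ne_of_mem_erase ht
        rw [Finset.prod_congr rfl fun i _ => sum_addChar_pow hn0 hψ (mul_ne_zero ht0 (ha i)), Finset.prod_univ_sum]
        refine Finset.sum_congr rfl fun χ _ => ?_
        rw [← Finset.prod_inv_distrib, ← Units.val_mk0 ht0, prod_mulChar_apply, ← Finset.prod_mul_distrib]
        refine Finset.prod_congr rfl fun i _ => ?_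
        rw [map_mul, mul_assoc]
    _ = ∑ χ ∈ P, (if ∏ i, χ i = 1 then (Fintype.card F : ℂ) - 1 else 0) *
          ∏ i, ((χ i)⁻¹ (a i) * gaussSum (χ i) ψ) := by
        rw [Finset.sum_comm]
        refine Finset.sum_congr rfl fun χ _ => ?_
        rw [← Finset.sum_mul, Finset.sum_erase _ (MulChar.map_zero _)]
        split_ifs with h
        · rw [h, inv_one, MulChar.sum_one_eq_card_units, Fintype.card_units, Nat.cast_sub Fintype.card_pos,
            Nat.cast_one]
        · rw [MulChar.sum_eq_zero_of_ne_one (inv_ne_one.mpr h)]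
    _ = _ := by
        rw [Finset.mul_sum, show charTuples F n m = P.filter fun χ => ∏ i, χ i = 1 from rfl, Finset.sum_filter]
        exact Finset.sum_congr rfl fun χ _ => by split_ifs <;> simp

end FA.DiagonalHypersurface
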