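import Fermat.Agent.DiagonalHypersurface.Count
import Fermat.Agent.DavenportHasse.Fermat
import Mathlib.LinearAlgebra.Projectivization.Cardinality

/-!
# Diagonal hypersurfaces over every extension

The tuples upstairs are the lifts of those downstairs and `χ ∘ N` takes the value `χ (a) ^ s` at `a`, so with
`ω = ∏ χ i⁻¹ (a i) (-g(χ i)) / q` the lifting relation gives `q ^ s` as the only new denominator. Non-zero zeros
are the points of the projective hypersurface times the units.
-/

set_option autoImplicit false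
set_option linter.unusedSectionVars false

noncomputable section

open Finset
open scoped Classical

namespace FA.DiagonalHypersurface

open FA.FermatCount FA.DavenportHasse

variable {F : Type*} [Field F] [Fintype F] {m n : ℕ}

/-- The number of points of `∑ a i x i ^ n = 0` in projective space. -/
def diagonalPoints {E : Type*} [Field E] (a : Fin m → E) (n : ℕ) : ℕ :=
  Nat.card {p : Projectivization E (Fin m → E) // ∑ i, a i * p.rep i ^ n = 0}

theorem diagonalZeros_eq {E : Type*} [Field E] [Fintype E] (a : Fin m → E) (hn : 0 < n) :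
    diagonalZeros a n = diagonalPoints a n * (Fintype.card E - 1) + 1 := by
  set Z := fun x : Fin m → E => ∑ i, a i * x i ^ n = 0
  have hsmul : ∀ (c : Eˣ) (x : Fin m → E), Z (c • x) ↔ Z x := fun c x => by
    simp only [Z, Pi.smul_apply, Units.smul_def, smul_eq_mul, mul_pow, mul_left_comm (a _)]
    rw [← Finset.mul_sum, mul_eq_zero, or_iff_right (pow_ne_zero _ c.ne_zero)]
  have hZ0 : Z 0 := by simp [Z, zero_pow hn.ne']
  let f : {p : Projectivization E (Fin m → E) // Z p.rep} × Eˣ → {x : Fin m → E // Z x ∧ x ≠ 0} := fun x =>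
    ⟨x.2 • x.1.1.rep, (hsmul _ _).mpr x.1.2, (smul_ne_zero_iff_ne x.2).mpr x.1.1.rep_nonzero⟩
  have hf : Function.Bijective f := by
    constructor
    · rintro ⟨⟨p, hp⟩, u⟩ ⟨⟨p', hp'⟩, u'⟩ e
      replace e : u • p.rep = u' • p'.rep := congrArg Subtype.val e
      have hp2 : p = p' := by
        rw [← p.mk_rep, ← p'.mk_rep]
        exact (Projectivization.mk_eq_mk_iff E _ _ _ _).mpr ⟨u⁻¹ * u', by rw [mul_smul, ← e, inv_smul_smul]⟩
      subst hp2
      exact Prod.ext rfl (Units.ext (smul_left_injective E p.rep_nonzero e))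
    · rintro ⟨x, hx, hx0⟩
      obtain ⟨c, hc⟩ := Projectivization.exists_smul_eq_mk_rep E x hx0
      refine ⟨⟨⟨Projectivization.mk E x hx0, show Z _ by rwa [← hc, hsmul]⟩, c⁻¹⟩, Subtype.ext ?_⟩
      show c⁻¹ • (Projectivization.mk E x hx0).rep = x
      rw [← hc, inv_smul_smul]
  rw [diagonalZeros, diagonalPoints, Nat.card_eq_fintype_card, ← Fintype.card_units, ← Nat.card_eq_fintype_card
    (α := Eˣ), ← Nat.card_prod, Nat.card_eq_of_bijective f hf, Nat.card_eq_fintype_card, Fintype.card_subtype,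
    Fintype.card_subtype, ← Finset.card_erase_add_one (show (0 : Fin m → E) ∈ Finset.univ.filter Z by simp [hZ0])]
  congr 2
  ext x
  simp [and_comm]

/-- `ω = ∏ χ i⁻¹ (a i) (-g(χ i)) / q`. -/
def omegaValue (a : Fin m → F) (ψ : AddChar F ℂ) (χ : Fin m → MulChar F ℂ) : ℂ :=
  (∏ i, (χ i)⁻¹ (a i) * -gaussSum (χ i) ψ) / Fintype.card F

variable (E : Type*) [Field E] [Fintype E] [Algebra F E]

theorem charTuples_eq_image (hn : n ∣ Fintype.card F - 1) :
    charTuples E n m = (charTuples F n m).image fun χ i => normChar E (χ i) := by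
  have hprod : ∀ χ : Fin m → MulChar F ℂ, ∏ i, normChar E (χ i) = normChar E (∏ i, χ i) := fun χ =>
    (map_prod (normCharHom (R := ℂ) (F := F) E) χ Finset.univ).symm
  have h1 : normChar E (1 : MulChar F ℂ) = 1 := map_one (normCharHom (R := ℂ) (F := F) E)
  ext y
  rw [mem_charTuples, Finset.mem_image]
  constructor
  · rintro ⟨hy, hy1⟩
    have hex : ∀ i, ∃ χ ∈ killed F n, normChar E χ = y i := fun i => Finset.mem_image.mp (by
      rw [← killed_eq_image E hn, mem_killed]
      exact (hy i).2)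
    choose χ hχ hχy using hex
    refine ⟨χ, mem_charTuples.mpr ⟨fun i => ⟨fun e => (hy i).1 ?_, mem_killed.mp (hχ i)⟩, ?_⟩, funext hχy⟩
    · rw [← hχy, e, h1]
    · refine normChar_injective E ?_
      rw [← hprod, h1]
      simpa only [hχy] using hy1
  · rintro ⟨χ, hχ, rfl⟩
    obtain ⟨hχ, hχ1⟩ := mem_charTuples.mp hχ
    refine ⟨fun i => ⟨normChar_ne_one E (hχ i).1, ?_⟩, by rw [hprod, hχ1, h1]⟩
    rw [show normChar E (χ i) ^ n = normChar E (χ i ^ n) from (map_pow (normCharHom (R := ℂ) (F := F) E) _ _).symm,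
      (hχ i).2, h1]

/-- **The zeros over every extension.** -/
theorem diagonalZeros_extension (hn0 : 0 < n) (hn : n ∣ Fintype.card F - 1) (hm : 0 < m) {a : Fin m → F}
    (ha : ∀ i, a i ≠ 0) {ψ : AddChar F ℂ} (hψ : ψ.IsPrimitive) :
    (diagonalZeros (fun i => algebraMap F E (a i)) n : ℂ) =
      ((Fintype.card F : ℂ) ^ Module.finrank F E) ^ (m - 1) +
        ((Fintype.card F : ℂ) ^ Module.finrank F E - 1) *
          ((-1) ^ m * ∑ χ ∈ charTuples F n m, omegaValue a ψ χ ^ Module.finrank F E) := by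
  set s := Module.finrank F E
  have hQ : (Fintype.card E : ℂ) = (Fintype.card F : ℂ) ^ s := by rw [card_pow_finrank (F := F) E, Nat.cast_pow]
  have hq0 : (Fintype.card F : ℂ) ≠ 0 := Nat.cast_ne_zero.mpr Fintype.card_ne_zero
  have key := card_diagonalZeros (n := n) hn0 (a := fun i => algebraMap F E (a i))
    (fun i => (map_ne_zero_iff _ (algebraMap F E).injective).mpr (ha i)) (traceAddChar_isPrimitive E hψ)
  rw [hQ, charTuples_eq_image E hn,
    Finset.sum_image fun χ _ φ _ e => funext fun i => normChar_injective E (congrFun e i)] at key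
  have hterm : ∀ χ ∈ charTuples F n m, ∏ i, ((normChar E (χ i))⁻¹ (algebraMap F E (a i)) *
      gaussSum (normChar E (χ i)) (traceAddChar E ψ)) =
      (Fintype.card F : ℂ) ^ s * ((-1) ^ m * omegaValue a ψ χ ^ s) := fun χ hχ => by
    have h1 : ∀ i, (normChar E (χ i))⁻¹ (algebraMap F E (a i)) * gaussSum (normChar E (χ i)) (traceAddChar E ψ) =
        -1 * ((χ i)⁻¹ (a i) * -gaussSum (χ i) ψ) ^ s := fun i => by
      rw [← neg_neg (gaussSum (normChar E (χ i)) _), neg_gaussSum_normChar _ _ ((mem_charTuples.mp hχ).1 i).1,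
        show (normChar E (χ i))⁻¹ = normChar E (χ i)⁻¹ from (map_inv (normCharHom (R := ℂ) (F := F) E) _).symm,
        normChar_apply, Algebra.norm_algebraMap, map_pow, mul_pow]
      ring
    rw [Finset.prod_congr rfl fun i _ => h1 i, Finset.prod_mul_distrib, Finset.prod_const, Finset.card_univ,
      Fintype.card_fin, Finset.prod_pow, omegaValue, div_pow]
    field_simp
  rw [Finset.sum_congr rfl hterm, ← Finset.mul_sum, ← Finset.mul_sum] at key
  refine mul_right_cancel₀ (pow_ne_zero s hq0) (key.trans ?_)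
  rw [add_mul, ← pow_succ, Nat.sub_add_cancel hm]
  ring

/-- **The projective points over every extension.** -/
theorem diagonalPoints_extension (hn0 : 0 < n) (hn : n ∣ Fintype.card F - 1) (hm : 0 < m) {a : Fin m → F}
    (ha : ∀ i, a i ≠ 0) {ψ : AddChar F ℂ} (hψ : ψ.IsPrimitive) :
    (diagonalPoints (fun i => algebraMap F E (a i)) n : ℂ) =
      (∑ j ∈ Finset.range (m - 1), ((Fintype.card F : ℂ) ^ j) ^ Module.finrank F E) +
        (-1) ^ m * ∑ χ ∈ charTuples F n m, omegaValue a ψ χ ^ Module.finrank F E := by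
  set s := Module.finrank F E
  have hQ : (Fintype.card E : ℂ) = (Fintype.card F : ℂ) ^ s := by rw [card_pow_finrank (F := F) E, Nat.cast_pow]
  have hne : (Fintype.card F : ℂ) ^ s - 1 ≠ 0 := by
    rw [← hQ, sub_ne_zero]
    exact_mod_cast Fintype.one_lt_card.ne'
  have hgeom : (∑ j ∈ Finset.range (m - 1), ((Fintype.card F : ℂ) ^ j) ^ s) * ((Fintype.card F : ℂ) ^ s - 1) =
      ((Fintype.card F : ℂ) ^ s) ^ (m - 1) - 1 := by
    rw [← geom_sum_mul ((Fintype.card F : ℂ) ^ s) (m - 1)]
    exact congrArg (· * _) (Finset.sum_congr rfl fun j _ => by rw [← pow_mul, ← pow_mul, mul_comm])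
  have key := diagonalZeros_extension E hn0 hn hm ha hψ
  rw [diagonalZeros_eq _ hn0, Nat.cast_add, Nat.cast_mul, Nat.cast_sub Fintype.card_pos, Nat.cast_one, hQ] at key
  refine mul_right_cancel₀ hne ?_
  linear_combination key - hgeom

end FA.DiagonalHypersurface
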