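import Fermat.Agent.DiagonalHypersurface.Lifted
import Mathlib.NumberTheory.LegendreSymbol.Complex

/-!
# The numbers `ω`

There are `((n - 1) ^ m + (-1) ^ m (n - 1)) / n` of them: a tuple with product `≠ 1` extends uniquely. Inversion of
the tuple sends `ω` to `q ^ (m - 2) / ω`, and `|ω| ^ 2 = q ^ (m - 2)`.
-/

set_option autoImplicit false
set_option linter.unusedSectionVars false

noncomputable section

open Finset
open scoped Classical

namespace FA.DiagonalHypersurface

open FA.FermatCount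

variable {F : Type*} [Field F] [Fintype F] {m n : ℕ}

theorem card_charTuples_succ (hn : n ∣ Fintype.card F - 1) :
    (charTuples F n (m + 1)).card + (charTuples F n m).card = (n - 1) ^ m := by
  set P := Fintype.piFinset fun _ : Fin m => (killed F n).erase 1
  have hP : P.card = (n - 1) ^ m := by
    simp only [P, Fintype.card_piFinset, Finset.card_erase_of_mem one_mem_killed, card_killed, Nat.gcd_eq_left hn,
      Finset.prod_const, Finset.card_univ, Fintype.card_fin]
  have hbij : (charTuples F n (m + 1)).card = (P.filter fun χ => ¬ ∏ i, χ i = 1).card := by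
    refine Finset.card_nbij' (fun χ => Fin.init χ)
      (fun χ => Fin.snoc (α := fun _ => MulChar F ℂ) χ (∏ i, χ i)⁻¹) ?_ ?_ ?_ ?_
    · intro χ hχ
      obtain ⟨h, h1⟩ := mem_charTuples.mp hχ
      rw [Fin.prod_univ_castSucc] at h1
      refine Finset.mem_filter.mpr ⟨Fintype.mem_piFinset.mpr fun i => Finset.mem_erase.mpr
        ⟨(h i.castSucc).1, mem_killed.mpr (h i.castSucc).2⟩, fun e => (h (Fin.last m)).1 ?_⟩
      change ∏ i : Fin m, χ i.castSucc = 1 at e
      rwa [e, one_mul] at h1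
    · intro χ hχ
      obtain ⟨h, h1⟩ := Finset.mem_filter.mp hχ
      refine mem_charTuples.mpr ⟨Fin.lastCases ?_ fun i => ?_, by rw [Fin.prod_snoc, mul_inv_cancel]⟩
      · dsimp only
        rw [Fin.snoc_last]
        refine ⟨inv_ne_one.mpr h1, ?_⟩
        rw [inv_pow, ← Finset.prod_pow, Finset.prod_eq_one fun i _ =>
          mem_killed.mp (Finset.mem_of_mem_erase (Fintype.mem_piFinset.mp h i)), inv_one]
      · dsimp only
        rw [Fin.snoc_castSucc]
        exact ⟨Finset.ne_of_mem_erase (Fintype.mem_piFinset.mp h i),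
          mem_killed.mp (Finset.mem_of_mem_erase (Fintype.mem_piFinset.mp h i))⟩
    · intro χ hχ
      obtain ⟨-, h1⟩ := mem_charTuples.mp hχ
      rw [Fin.prod_univ_castSucc] at h1
      show Fin.snoc (Fin.init χ) _ = χ
      rw [show (∏ i, Fin.init χ i)⁻¹ = χ (Fin.last m) from inv_eq_of_mul_eq_one_right h1, Fin.snoc_init_self]
    · intro χ _
      show Fin.init (Fin.snoc (α := fun _ => MulChar F ℂ) χ _) = χ
      rw [Fin.init_snoc]
  rw [hbij, show charTuples F n m = P.filter fun χ => ∏ i, χ i = 1 from rfl, add_comm,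
    Finset.card_filter_add_card_filter_not, hP]

/-- **The number of `ω`**. -/
theorem card_charTuples (hn : n ∣ Fintype.card F - 1) (hn0 : 0 < n) (m : ℕ) :
    (n : ℤ) * (charTuples F n m).card = ((n : ℤ) - 1) ^ m + (-1) ^ m * ((n : ℤ) - 1) := by
  induction m with
  | zero =>
    have h : (charTuples F n 0).card = 1 := by
      rw [Finset.card_eq_one]
      exact ⟨finZeroElim, Finset.ext fun χ => ⟨fun _ => Finset.mem_singleton.mpr (Subsingleton.elim _ _),
        fun _ => mem_charTuples.mpr ⟨fun i => i.elim0, by simp⟩⟩⟩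
    rw [h]
    push_cast
    ring
  | succ m ih =>
    have h := congrArg (Nat.cast : ℕ → ℤ) (card_charTuples_succ (F := F) (m := m) hn)
    rw [Nat.cast_add, Nat.cast_pow, Nat.cast_sub hn0, Nat.cast_one] at h
    rw [pow_succ, pow_succ]
    linear_combination (n : ℤ) * h - ih

/-- The tuple of the inverse characters. -/
def invTuple (χ : Fin m → MulChar F ℂ) : Fin m → MulChar F ℂ := fun i => (χ i)⁻¹

theorem invTuple_invTuple (χ : Fin m → MulChar F ℂ) : invTuple (invTuple χ) = χ := funext fun i => inv_inv (χ i)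

theorem invTuple_mem {χ : Fin m → MulChar F ℂ} (h : χ ∈ charTuples F n m) : invTuple χ ∈ charTuples F n m := by
  obtain ⟨h, h1⟩ := mem_charTuples.mp h
  refine mem_charTuples.mpr ⟨fun i => ⟨inv_ne_one.mpr (h i).1, ?_⟩, ?_⟩
  · show (χ i)⁻¹ ^ n = 1
    rw [inv_pow, (h i).2, inv_one]
  · show ∏ i, (χ i)⁻¹ = 1
    rw [Finset.prod_inv_distrib, h1, inv_one]

theorem gaussSum_mul_inv {χ : MulChar F ℂ} (hχ : χ ≠ 1) {ψ : AddChar F ℂ} (hψ : ψ.IsPrimitive) :
    gaussSum χ ψ * gaussSum χ⁻¹ ψ = χ (-1) * Fintype.card F := by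
  have h := gaussSum_mulShift χ⁻¹ ψ (-1)
  rw [Units.val_neg, Units.val_one, AddChar.inv_mulShift ψ |>.symm] at h
  have h1 : χ⁻¹ (-1) = χ (-1) := by
    rw [MulChar.inv_apply', inv_neg, inv_one]
  rw [← h, h1, mul_left_comm, gaussSum_mul_gaussSum_eq_card hχ hψ]

variable {a : Fin m → F} {ψ : AddChar F ℂ}

/-- Inversion of the tuple. -/
theorem omegaValue_mul_invTuple (ha : ∀ i, a i ≠ 0) (hψ : ψ.IsPrimitive) {χ : Fin m → MulChar F ℂ}
    (hχ : χ ∈ charTuples F n m) :
    omegaValue a ψ χ * omegaValue a ψ (invTuple χ) * (Fintype.card F : ℂ) ^ 2 = (Fintype.card F : ℂ) ^ m := by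
  obtain ⟨h, h1⟩ := mem_charTuples.mp hχ
  have hq : (Fintype.card F : ℂ) ≠ 0 := Nat.cast_ne_zero.mpr Fintype.card_ne_zero
  have hi : ∀ i, (χ i)⁻¹ (a i) * -gaussSum (χ i) ψ * ((χ i)⁻¹⁻¹ (a i) * -gaussSum (χ i)⁻¹ ψ) =
      χ i ((-1 : Fˣ) : F) * Fintype.card F := fun i => by
    have e : (χ i)⁻¹ (a i) * (χ i) (a i) = 1 := by
      rw [← MulChar.mul_apply, inv_mul_cancel, MulChar.one_apply (isUnit_iff_ne_zero.mpr (ha i))]
    rw [inv_inv, Units.val_neg, Units.val_one, ← gaussSum_mul_inv (h i).1 hψ]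
    linear_combination gaussSum (χ i) ψ * gaussSum (χ i)⁻¹ ψ * e
  calc omegaValue a ψ χ * omegaValue a ψ (invTuple χ) * (Fintype.card F : ℂ) ^ 2
      = ∏ i, ((χ i)⁻¹ (a i) * -gaussSum (χ i) ψ * ((χ i)⁻¹⁻¹ (a i) * -gaussSum (χ i)⁻¹ ψ)) := by
        rw [Finset.prod_mul_distrib, omegaValue, omegaValue]
        simp only [invTuple]
        field_simp
    _ = _ := by
        rw [Finset.prod_congr rfl fun i _ => hi i, Finset.prod_mul_distrib, ← prod_mulChar_apply, h1,
          MulChar.one_apply_coe, one_mul, Finset.prod_const, Finset.card_univ, Fintype.card_fin]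

theorem norm_omegaValue_sq (ha : ∀ i, a i ≠ 0) (hψ : ψ.IsPrimitive) {χ : Fin m → MulChar F ℂ}
    (hχ : χ ∈ charTuples F n m) :
    ‖omegaValue a ψ χ‖ ^ 2 * (Fintype.card F : ℝ) ^ 2 = (Fintype.card F : ℝ) ^ m := by
  obtain ⟨h, -⟩ := mem_charTuples.mp hχ
  have hq : (Fintype.card F : ℝ) ≠ 0 := Nat.cast_ne_zero.mpr Fintype.card_ne_zero
  have hg : ∀ i, ‖(χ i)⁻¹ (a i) * -gaussSum (χ i) ψ‖ ^ 2 = (Fintype.card F : ℝ) := fun i => by
    have h2 := gaussSum_mul_gaussSum_eq_card (h i).1 hψ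
    rw [← star_gaussSum_eq, ← starRingEnd_apply, Complex.mul_conj'] at h2
    have h3 : ‖(χ i)⁻¹ (a i)‖ = 1 := by
      refine Complex.norm_eq_one_of_pow_eq_one (n := Fintype.card Fˣ) ?_ Fintype.card_ne_zero
      rw [← Units.val_mk0 (ha i), ← map_pow, ← Units.val_pow_eq_pow_val, pow_card_eq_one, Units.val_one,
        MulChar.map_one]
    rw [norm_mul, norm_neg, h3, one_mul]
    exact_mod_cast h2
  rw [omegaValue, norm_div, norm_prod, Complex.norm_natCast, div_pow, ← Finset.prod_pow,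
    Finset.prod_congr rfl fun i _ => hg i, Finset.prod_const, Finset.card_univ, Fintype.card_fin]
  field_simp

end FA.DiagonalHypersurface
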