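import Fermat.Agent.DiagonalHypersurface.Omega
import Fermat.Agent.DavenportHasse.Series
import Mathlib.FieldTheory.Finite.Extension

/-!
# The zeta function of a diagonal hypersurface

Its logarithmic derivative is a signed sum of geometric series, so it is
`∏ (1 - ω T) ^ ((-1) ^ (m + 1)) / ∏ (1 - q ^ j T)`; both families are stable under `w ↦ q ^ (m - 2) / w`, which gives
the functional equation.
-/

set_option autoImplicit false
set_option linter.unusedSectionVars false

noncomputable section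

open Finset
open scoped Classical

namespace FA.DiagonalHypersurface

open FA.DavenportHasse

open PowerSeries in
/-- The exponential of a difference of sums of geometric series. -/
theorem exp_subst_mul_prod {ι κ : Type*} (s : Finset ι) (t : Finset κ) (α : ι → ℂ) (β : κ → ℂ) {L : ℂ⟦X⟧}
    (h0 : constantCoeff L = 0) (hL : d⁄dX ℂ L = ∑ i ∈ s, geomDeriv (α i) - ∑ j ∈ t, geomDeriv (β j)) :
    (exp ℂ).subst L * ∏ i ∈ s, (1 - C (α i) * X) = ∏ j ∈ t, (1 - C (β j) * X) := by
  have hs : HasSubst L := HasSubst.of_constantCoeff_zero' h0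
  set f := (exp ℂ).subst L with hf
  have hf' : d⁄dX ℂ f = f * d⁄dX ℂ L := by rw [hf, derivative_subst hs, derivative_exp]
  have hf0 : constantCoeff f = 1 := by
    have h1 : constantCoeff ((exp ℂ - 1).subst L) = 0 := constantCoeff_subst_eq_zero h0 _ (by simp)
    rw [subst_sub hs, map_sub] at h1
    rw [show (1 : ℂ⟦X⟧).subst L = 1 by rw [← coe_substAlgHom hs, map_one], ← hf, map_one, sub_eq_zero] at h1
    exact h1
  set g := f * ∏ i ∈ s, (1 - C (α i) * X) with hg
  set P := ∏ j ∈ t, (1 - C (β j) * X) with hP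
  have hP0 : constantCoeff P = 1 := by simp [hP, map_prod]
  have hP' : d⁄dX ℂ P = P * -∑ j ∈ t, geomDeriv (β j) := derivative_prod_one_sub t β
  have hg' : d⁄dX ℂ g = g * -∑ j ∈ t, geomDeriv (β j) := by
    rw [hg, Derivation.leibniz, derivative_prod_one_sub, hf', hL]
    simp only [smul_eq_mul]
    ring
  have h : g * P⁻¹ = 1 := by
    refine derivative.ext ?_ (by simp [hg, hf0, hP0, map_prod])
    rw [derivative_one, Derivation.leibniz, derivative_inv', hP', hg']
    simp only [smul_eq_mul]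
    linear_combination (-g * P⁻¹ * -∑ j ∈ t, geomDeriv (β j)) * P.mul_inv_cancel (by simp [hP0])
  calc g = g * (P⁻¹ * P) := by rw [P.inv_mul_cancel (by simp [hP0]), mul_one]
    _ = P := by rw [← mul_assoc, h, one_mul]

/-- A family stable under `w ↦ c / w`. -/
theorem prod_one_sub_reflect {ι : Type*} (s : Finset ι) (w : ι → ℂ) (τ : ι → ι) (hmem : ∀ i ∈ s, τ i ∈ s)
    (hinv : ∀ i ∈ s, τ (τ i) = i) {c z : ℂ} (hc : c ≠ 0) (hz : z ≠ 0) (hw : ∀ i ∈ s, w i * w (τ i) = c) :
    (∏ i ∈ s, (1 - w i * (1 / (c * z)))) * ((-z) ^ s.card * ∏ i ∈ s, w i) = ∏ i ∈ s, (1 - w i * z) := by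
  rw [← Finset.prod_const, ← Finset.prod_mul_distrib,
    Finset.prod_nbij' τ τ hmem hmem hinv hinv (g := fun i => 1 - w (τ i) * (1 / (c * z)))
      (fun i hi => by rw [hinv i hi]), ← Finset.prod_mul_distrib]
  refine Finset.prod_congr rfl fun i hi => ?_
  have hwi : w i ≠ 0 := left_ne_zero_of_mul (ne_of_eq_of_ne (hw i hi) hc)
  have hτ : w (τ i) = c / w i := by rw [← hw i hi, mul_div_cancel_left₀ _ hwi]
  rw [hτ]
  field_simp
  ring

variable {F : Type*} [Field F] [Fintype F] {m n : ℕ} {a : Fin m → F} {ψ : AddChar F ℂ}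

theorem omega_pair (hm : 2 ≤ m) (ha : ∀ i, a i ≠ 0) (hψ : ψ.IsPrimitive) {χ : Fin m → MulChar F ℂ}
    (hχ : χ ∈ charTuples F n m) :
    omegaValue a ψ χ * omegaValue a ψ (invTuple χ) = (Fintype.card F : ℂ) ^ (m - 2) := by
  refine mul_right_cancel₀ (pow_ne_zero 2 (Nat.cast_ne_zero.mpr (Fintype.card_ne_zero (α := F)))) ?_
  rw [omegaValue_mul_invTuple ha hψ hχ, ← pow_add, Nat.sub_add_cancel hm]

theorem norm_omega (hm : 2 ≤ m) (ha : ∀ i, a i ≠ 0) (hψ : ψ.IsPrimitive) {χ : Fin m → MulChar F ℂ}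
    (hχ : χ ∈ charTuples F n m) : ‖omegaValue a ψ χ‖ ^ 2 = (Fintype.card F : ℝ) ^ (m - 2) := by
  refine mul_right_cancel₀ (pow_ne_zero 2 (Nat.cast_ne_zero.mpr (Fintype.card_ne_zero (α := F)))) ?_
  rw [norm_omegaValue_sq ha hψ hχ, ← pow_add, Nat.sub_add_cancel hm]

theorem prod_omega_sq (hm : 2 ≤ m) (ha : ∀ i, a i ≠ 0) (hψ : ψ.IsPrimitive) :
    (∏ χ ∈ charTuples F n m, omegaValue a ψ χ) ^ 2 =
      (Fintype.card F : ℂ) ^ ((m - 2) * (charTuples F n m).card) := by
  rw [pow_two]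
  nth_rewrite 2 [Finset.prod_nbij' invTuple invTuple (fun χ h => invTuple_mem h) (fun χ h => invTuple_mem h)
    (fun χ _ => invTuple_invTuple χ) (fun χ _ => invTuple_invTuple χ) (g := fun χ => omegaValue a ψ (invTuple χ))
    (fun χ _ => by rw [invTuple_invTuple])]
  rw [← Finset.prod_mul_distrib, Finset.prod_congr rfl fun χ hχ => omega_pair hm ha hψ hχ, Finset.prod_const,
    ← pow_mul]

/-- The value of the zeta function. -/
def zetaValue (a : Fin m → F) (ψ : AddChar F ℂ) (n : ℕ) (z : ℂ) : ℂ :=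
  (∏ χ ∈ charTuples F n m, (1 - omegaValue a ψ χ * z)) ^ ((-1 : ℤ) ^ (m + 1)) /
    ∏ j ∈ Finset.range (m - 1), (1 - (Fintype.card F : ℂ) ^ j * z)

/-- **The functional equation**. -/
theorem zetaValue_functional (hm : 2 ≤ m) (ha : ∀ i, a i ≠ 0) (hψ : ψ.IsPrimitive) {z : ℂ} (hz : z ≠ 0) :
    zetaValue a ψ n (1 / ((Fintype.card F : ℂ) ^ (m - 2) * z)) =
      (-z) ^ (m - 1) * (∏ j ∈ Finset.range (m - 1), (Fintype.card F : ℂ) ^ j) *
        ((-z) ^ (charTuples F n m).card * ∏ χ ∈ charTuples F n m, omegaValue a ψ χ) ^ ((-1 : ℤ) ^ m) *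
          zetaValue a ψ n z := by
  have hq : (Fintype.card F : ℂ) ≠ 0 := Nat.cast_ne_zero.mpr Fintype.card_ne_zero
  have hc := pow_ne_zero (m - 2) hq
  have h1 := prod_one_sub_reflect (charTuples F n m) (omegaValue a ψ) invTuple (fun χ h => invTuple_mem h)
    (fun χ _ => invTuple_invTuple χ) hc hz fun χ h => omega_pair hm ha hψ h
  have h2 := prod_one_sub_reflect (Finset.range (m - 1)) (fun j => (Fintype.card F : ℂ) ^ j) (fun j => m - 2 - j)
    (fun j hj => by rw [Finset.mem_range] at hj ⊢; omega) (fun j hj => by rw [Finset.mem_range] at hj; omega) hc hz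
    fun j hj => by rw [Finset.mem_range] at hj; rw [← pow_add, Nat.add_sub_cancel' (by omega)]
  rw [Finset.card_range] at h2
  set A := (-z) ^ (charTuples F n m).card * ∏ χ ∈ charTuples F n m, omegaValue a ψ χ with hA
  set B := (-z) ^ (m - 1) * ∏ j ∈ Finset.range (m - 1), (Fintype.card F : ℂ) ^ j with hB
  have hA0 : A ≠ 0 := mul_ne_zero (pow_ne_zero _ (neg_ne_zero.mpr hz)) (Finset.prod_ne_zero_iff.mpr fun χ h =>
    left_ne_zero_of_mul (ne_of_eq_of_ne (omega_pair hm ha hψ h) hc))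
  have hB0 : B ≠ 0 := mul_ne_zero (pow_ne_zero _ (neg_ne_zero.mpr hz))
    (Finset.prod_ne_zero_iff.mpr fun j _ => pow_ne_zero _ hq)
  rw [zetaValue, zetaValue, ← h1, ← h2, pow_succ (-1 : ℤ) m, mul_neg_one]
  generalize (-1 : ℤ) ^ m = e
  rw [zpow_neg, zpow_neg, mul_zpow _ A, mul_inv]
  have hAe := zpow_ne_zero e hA0
  field_simp

open PowerSeries in
/-- **The zeta function is rational**. -/
theorem exp_diagonalPoints (hn0 : 0 < n) (hn : n ∣ Fintype.card F - 1) (hm : 0 < m) (ha : ∀ i, a i ≠ 0)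
    (hψ : ψ.IsPrimitive) (p : ℕ) [Fact p.Prime] [CharP F p] {L : ℂ⟦X⟧} (h0 : constantCoeff L = 0)
    (hL : ∀ k, coeff (k + 1) L = (diagonalPoints
      (fun i => algebraMap F (FiniteField.Extension F p (k + 1)) (a i)) n : ℂ) / (k + 1)) :
    (Odd m → (exp ℂ).subst L * (∏ j ∈ Finset.range (m - 1), (1 - C ((Fintype.card F : ℂ) ^ j) * X)) =
      ∏ χ ∈ charTuples F n m, (1 - C (omegaValue a ψ χ) * X)) ∧
    (Even m → (exp ℂ).subst L * ((∏ j ∈ Finset.range (m - 1), (1 - C ((Fintype.card F : ℂ) ^ j) * X)) *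
      ∏ χ ∈ charTuples F n m, (1 - C (omegaValue a ψ χ) * X)) = 1) := by
  have hd : d⁄dX ℂ L = ∑ j ∈ Finset.range (m - 1), geomDeriv ((Fintype.card F : ℂ) ^ j) +
      C ((-1 : ℂ) ^ m) * ∑ χ ∈ charTuples F n m, geomDeriv (omegaValue a ψ χ) := by
    ext k
    let := Fintype.ofFinite (FiniteField.Extension F p (k + 1))
    rw [coeff_derivative, hL, diagonalPoints_extension (F := F) _ hn0 hn hm ha hψ, FiniteField.finrank_extension]
    simp only [geomDeriv, map_add, map_sum, coeff_C_mul, coeff_mk]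
    field_simp
  refine ⟨fun h => ?_, fun h => ?_⟩
  · rw [h.neg_one_pow, map_neg, map_one, neg_one_mul, ← sub_eq_add_neg] at hd
    exact exp_subst_mul_prod _ _ _ _ h0 hd
  · rw [h.neg_one_pow, map_one, one_mul] at hd
    have := exp_subst_mul_prod ((Finset.range (m - 1)).disjSum (charTuples F n m)) (∅ : Finset ℕ)
      (Sum.elim (fun j => (Fintype.card F : ℂ) ^ j) (omegaValue a ψ)) (fun _ => 0) h0 (by
        rw [hd, Finset.sum_empty, sub_zero, Finset.sum_disjSum]
        rfl)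
    rw [Finset.prod_disjSum, Finset.prod_empty] at this
    exact this

end FA.DiagonalHypersurface
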